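import Fermat.Agent.LagrangeInversion.Main
import Mathlib.RingTheory.PowerSeries.Exp
import Mathlib.RingTheory.PowerSeries.Binomial

/-!
# The Fuss–Catalan numbers, the tree function and Abel's binomial theorem
-/

set_option autoImplicit false

open PowerSeries Finset

namespace FA.LagrangeInversion

theorem coeff_one_add_X_pow' {R : Type*} [CommRing R] (N i : ℕ) :
    coeff i ((1 + X : PowerSeries R) ^ N) = (N.choose i : R) := by
  have h : (((1 + Polynomial.X : Polynomial R) ^ N : Polynomial R) : PowerSeries R) =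
      (1 + X) ^ N := by simp
  rw [← h, Polynomial.coeff_coe, Polynomial.coeff_one_add_X_pow]

theorem fuss_catalan (p : ℕ) (B : PowerSeries ℤ) (hB : B = 1 + X * B ^ p) (r n : ℕ) :
    ((p * n + r : ℕ) : ℤ) * coeff n (B ^ r) = (r : ℤ) * ((p * n + r).choose n : ℤ) := by
  set g := B - 1 with hgdef
  have hg : constantCoeff g = 0 := by
    rw [hgdef, hB]
    simp
  have hs := HasSubst.of_constantCoeff_zero' hg
  have hsub : ∀ e : ℕ, ((1 + X : PowerSeries ℤ) ^ e).subst g = B ^ e := fun e => by
    rw [subst_pow hs, subst_add hs, subst_one' hg, subst_X hs, hgdef, add_sub_cancel]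
  have hsol : g = X * ((1 + X : PowerSeries ℤ) ^ p).subst g := by
    rw [hsub, hgdef]
    linear_combination hB
  rcases n with _ | n
  · have : constantCoeff B = 1 := by rw [hB]; simp
    simp [this]
  rcases r with _ | r
  · simp [coeff_one]
  refine mul_left_cancel₀ (Nat.cast_ne_zero.2 (Nat.succ_ne_zero n) : ((n + 1 : ℕ) : ℤ) ≠ 0) ?_
  have h := coeff_subst_solution hsol ((1 + X : PowerSeries ℤ) ^ (r + 1)) n
  rw [hsub, derivative_pow, ← map_natCast (C (R := ℤ)), map_add, derivative_one, derivative_X,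
    zero_add, mul_one, mul_assoc, coeff_C_mul, ← pow_mul, ← pow_add, coeff_one_add_X_pow'] at h
  rw [mul_left_comm, h]
  have hc : (p * (n + 1) + (r + 1)) * (r + 1 - 1 + p * (n + 1)).choose n =
      (p * (n + 1) + (r + 1)).choose (n + 1) * (n + 1) := by
    rw [← Nat.add_assoc, Nat.add_sub_cancel, add_comm r]
    exact Nat.add_one_mul_choose_eq _ n
  rw [mul_left_comm, ← Nat.cast_mul, ← Nat.cast_mul, ← Nat.cast_mul, ← Nat.cast_mul, hc]
  ring_nf

variable {K : Type*} [Field K] [CharZero K]

/-- The Abel polynomials `a (a + n) ^ (n - 1)`. -/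
def abel (n : ℕ) (a : K) : K := if n = 0 then 1 else a * (a + n) ^ (n - 1)

theorem derivative_rescale_exp (a : K) :
    derivative K (rescale a (exp K)) = C a * rescale a (exp K) := by
  ext n
  rw [coeff_derivative, coeff_C_mul, coeff_rescale, coeff_rescale, coeff_exp, coeff_exp,
    Nat.factorial_succ]
  simp only [one_div, map_inv₀, map_natCast, Nat.cast_mul]
  have : ((n.factorial : ℕ) : K) ≠ 0 := Nat.cast_ne_zero.2 n.factorial_ne_zero
  have : ((n + 1 : ℕ) : K) ≠ 0 := Nat.cast_ne_zero.2 n.succ_ne_zero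
  push_cast at *
  field_simp
  ring

theorem coeff_exp_solution {g : PowerSeries K} (hg : g = X * (exp K).subst g) (a : K) (n : ℕ) :
    coeff n ((rescale a (exp K)).subst g) = abel n a / n.factorial := by
  have hg0 : constantCoeff g = 0 := by rw [hg]; simp
  rcases n with _ | n
  · rw [coeff_subst_range hg0]
    simp [abel]
  have h := coeff_subst_solution hg (rescale a (exp K)) n
  rw [derivative_rescale_exp, exp_pow_eq_rescale_exp, mul_assoc, exp_mul_exp_eq_exp_add,
    coeff_C_mul, coeff_rescale, coeff_exp] at h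
  refine mul_left_cancel₀ (Nat.cast_ne_zero.2 n.succ_ne_zero : ((n + 1 : ℕ) : K) ≠ 0) ?_
  rw [h, abel, if_neg (Nat.succ_ne_zero n), Nat.add_sub_cancel, Nat.factorial_succ]
  simp only [one_div, map_inv₀, map_natCast, Nat.cast_mul]
  have : ((n + 1 : ℕ) : K) ≠ 0 := Nat.cast_ne_zero.2 n.succ_ne_zero
  field_simp

theorem coeff_treeFunction {g : PowerSeries K} (hg : g = X * (exp K).subst g) (n : ℕ) (hn : 0 < n) :
    coeff n g = (n : K) ^ (n - 1) / n.factorial := by
  have h := coeff_pow_solution hg (k := 1) hn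
  rw [pow_one, Nat.cast_one, one_mul, exp_pow_eq_rescale_exp, coeff_rescale, coeff_exp] at h
  obtain ⟨m, rfl⟩ : ∃ m, n = m + 1 := ⟨n - 1, by omega⟩
  refine mul_left_cancel₀ (Nat.cast_ne_zero.2 m.succ_ne_zero : ((m + 1 : ℕ) : K) ≠ 0) ?_
  rw [h, Nat.add_sub_cancel, Nat.factorial_succ]
  simp only [one_div, map_inv₀, map_natCast, Nat.cast_mul]
  have : ((m + 1 : ℕ) : K) ≠ 0 := Nat.cast_ne_zero.2 m.succ_ne_zero
  field_simp

theorem abel_convolution (a b : K) (n : ℕ) :
    ∑ i ∈ range (n + 1), (n.choose i : K) * abel i a * abel (n - i) b = abel n (a + b) := by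
  obtain ⟨g, hg⟩ := exists_solution (exp K)
  have hg0 : constantCoeff g = 0 := by rw [hg]; simp
  have h := coeff_exp_solution hg (a + b) n
  rw [← exp_mul_exp_eq_exp_add, subst_mul (HasSubst.of_constantCoeff_zero' hg0), coeff_mul,
    Nat.sum_antidiagonal_eq_sum_range_succ_mk, eq_div_iff
      (Nat.cast_ne_zero.2 n.factorial_ne_zero), sum_mul] at h
  rw [← h]
  refine sum_congr rfl fun i hi => ?_
  rw [coeff_exp_solution hg, coeff_exp_solution hg, Nat.cast_choose K
    (Nat.lt_succ_iff.1 (mem_range.1 hi))]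
  have : ((i.factorial : ℕ) : K) ≠ 0 := Nat.cast_ne_zero.2 i.factorial_ne_zero
  have : (((n - i).factorial : ℕ) : K) ≠ 0 := Nat.cast_ne_zero.2 (n - i).factorial_ne_zero
  field_simp

theorem abel_sum (a : K) (n : ℕ) : ∀ b : K,
    ∑ i ∈ range (n + 1), (n.choose i : K) * abel i a * (b + (n - i : ℕ)) ^ (n - i) =
      (a + b + n) ^ n := by
  induction n with
  | zero => simp [abel]
  | succ n ih =>
    intro b
    have hsplit : ∀ m : ℕ, (b + m) ^ m = abel m b + (m : K) * (b + m) ^ (m - 1) := by
      intro m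
      rcases m with _ | m
      · simp [abel]
      · rw [abel, if_neg (Nat.succ_ne_zero m), Nat.add_sub_cancel, pow_succ]
        ring
    have hrest : ∑ i ∈ range (n + 1 + 1), ((n + 1).choose i : K) * abel i a *
        (((n + 1 - i : ℕ) : K) * (b + (n + 1 - i : ℕ)) ^ (n + 1 - i - 1)) =
          (n + 1 : K) * (a + (b + 1) + n) ^ n := by
      rw [sum_range_succ, Nat.sub_self, Nat.cast_zero, zero_mul, mul_zero, add_zero, ← ih (b + 1),
        mul_sum]
      refine sum_congr rfl fun i hi => ?_
      have hi' : i ≤ n := Nat.lt_succ_iff.1 (mem_range.1 hi)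
      have hc := congrArg (Nat.cast : ℕ → K) (Nat.choose_mul_succ_eq n i)
      rw [show n + 1 - i - 1 = n - i by omega]
      rw [Nat.cast_mul, Nat.cast_mul, show n + 1 - i = n - i + 1 by omega] at hc
      rw [show n + 1 - i = n - i + 1 by omega]
      push_cast at hc ⊢
      linear_combination -(abel i a * (b + ((n - i : ℕ) : K) + 1) ^ (n - i)) * hc
    rw [sum_congr rfl fun i _ => by rw [hsplit, mul_add], sum_add_distrib, abel_convolution,
      hrest, abel, if_neg (Nat.succ_ne_zero n), Nat.add_sub_cancel, pow_succ]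
    push_cast
    ring

theorem abel_binomial (x y z : K) (n : ℕ) :
    (x + y) ^ n = y ^ n + ∑ k ∈ Icc 1 n,
      (n.choose k : K) * (x * (x - k * z) ^ (k - 1)) * (y + k * z) ^ (n - k) := by
  have hR : y ^ n + ∑ k ∈ Icc 1 n,
      (n.choose k : K) * (x * (x - k * z) ^ (k - 1)) * (y + k * z) ^ (n - k) =
        ∑ k ∈ range (n + 1), (n.choose k : K) * (if k = 0 then 1 else x * (x - k * z) ^ (k - 1)) *
          (y + k * z) ^ (n - k) := by
    rw [Finset.sum_range_succ' _ n, add_comm]
    congr 1
    · refine sum_nbij' (fun k => k - 1) (fun k => k + 1) ?_ ?_ ?_ ?_ ?_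
      · intro k hk
        simp only [mem_Icc] at hk
        simp only [mem_range]
        omega
      · intro k hk
        simp only [mem_range] at hk
        simp only [mem_Icc]
        omega
      · intro k hk
        simp only [mem_Icc] at hk
        omega
      · intro k _
        simp
      · intro k hk
        obtain ⟨j, rfl⟩ := Nat.exists_eq_succ_of_ne_zero (show k ≠ 0 by
          simp only [mem_Icc] at hk; omega)
        simp
    · simp
  rw [hR]
  rcases eq_or_ne z 0 with rfl | hz
  · rw [add_pow]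
    refine sum_congr rfl fun k _ => ?_
    rcases k with _ | k
    · simp
    · simp [pow_succ]
      ring
  · have h := abel_sum (-x / z) n (-y / z - n)
    rw [show -x / z + (-y / z - n) + n = -((x + y) / z) by ring] at h
    have hpow : (x + y) ^ n = (-z) ^ n * (-((x + y) / z)) ^ n := by
      rw [← mul_pow]
      field_simp
    rw [hpow, ← h, mul_sum]
    refine sum_congr rfl fun k hk => ?_
    have hk' : k ≤ n := Nat.lt_succ_iff.1 (mem_range.1 hk)
    obtain ⟨m, rfl⟩ := Nat.exists_eq_add_of_le hk'
    rw [Nat.add_sub_cancel_left, pow_add]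
    have h2 : (-z) ^ m * (-y / z - ((k + m : ℕ) : K) + (m : K)) ^ m = (y + k * z) ^ m := by
      rw [← mul_pow]
      congr 1
      push_cast
      field_simp
      ring
    have h1 : (-z) ^ k * abel k (-x / z) =
        if k = 0 then 1 else x * (x - k * z) ^ (k - 1) := by
      rcases k with _ | k
      · simp [abel]
      · rw [abel, if_neg (Nat.succ_ne_zero k), if_neg (Nat.succ_ne_zero k), Nat.add_sub_cancel,
          pow_succ', mul_mul_mul_comm, ← mul_pow]
        congr 1
        · field_simp
        · congr 1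
          field_simp
          ring
    rw [← h1, ← h2]
    ring

end FA.LagrangeInversion
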