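import Mathlib.Algebra.MvPolynomial.CommRing
import Mathlib.RingTheory.PowerSeries.Derivative
import Mathlib.RingTheory.PowerSeries.NoZeroDivisors
import Mathlib.RingTheory.PowerSeries.Substitution
import Mathlib.Tactic

/-!
# The inversion formula of Lagrange and Bürmann

`g = X φ(g)` is solved by iteration. The coefficient formula follows by strong induction without
residues, first without additive torsion and then in general through the generic series.
-/

set_option autoImplicit false

open PowerSeries Finset

namespace FA.LagrangeInversion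

variable {R : Type*} [CommRing R]

theorem coeff_subst_range {g : PowerSeries R} (hg : constantCoeff g = 0) (f : PowerSeries R)
    (n : ℕ) : coeff n (f.subst g) = ∑ i ∈ range (n + 1), coeff i f * coeff n (g ^ i) := by
  rw [coeff_subst' (HasSubst.of_constantCoeff_zero' hg), finsum_eq_sum_of_support_subset _ ?_]
  · rfl
  intro i hi
  by_contra h
  simp only [Finset.coe_range, Set.mem_Iio, not_lt] at h
  refine hi ?_
  show coeff i f • coeff n (g ^ i) = 0
  rw [X_pow_dvd_iff.1 (pow_dvd_pow_of_dvd (X_dvd_iff.2 hg) i) n (by omega), smul_zero]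

theorem subst_one' {g : PowerSeries R} (hg : constantCoeff g = 0) :
    (1 : PowerSeries R).subst g = (1 : PowerSeries R) := by
  rw [← coe_substAlgHom (HasSubst.of_constantCoeff_zero' hg), map_one]

theorem dvd_subst_sub (φ : PowerSeries R) {g g' : PowerSeries R} (hg : constantCoeff g = 0)
    (hg' : constantCoeff g' = 0) {n : ℕ} (h : X ^ n ∣ g - g') :
    X ^ (n + 1) ∣ X * φ.subst g - X * φ.subst g' := by
  rw [← mul_sub, pow_succ']
  refine mul_dvd_mul_left X (X_pow_dvd_iff.2 fun m hm => ?_)
  rw [map_sub, coeff_subst_range hg, coeff_subst_range hg', ← sum_sub_distrib]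
  refine sum_eq_zero fun i _ => ?_
  rw [← mul_sub, ← map_sub, X_pow_dvd_iff.1 (h.trans (sub_dvd_pow_sub_pow g g' i)) m hm,
    mul_zero]

/-- The iterates of `g ↦ X φ(g)`. -/
noncomputable def iter (φ : PowerSeries R) : ℕ → PowerSeries R
  | 0 => 0
  | n + 1 => X * φ.subst (iter φ n)

theorem constantCoeff_iter (φ : PowerSeries R) : ∀ n, constantCoeff (iter φ n) = 0
  | 0 => by simp [iter]
  | n + 1 => by simp [iter]

theorem iter_step (φ : PowerSeries R) : ∀ n, X ^ n ∣ iter φ (n + 1) - iter φ n
  | 0 => by simp
  | n + 1 => dvd_subst_sub φ (constantCoeff_iter φ _) (constantCoeff_iter φ n) (iter_step φ n)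

theorem coeff_iter (φ : PowerSeries R) (m : ℕ) :
    ∀ k, coeff m (iter φ (m + 1 + k)) = coeff m (iter φ (m + 1))
  | 0 => rfl
  | k + 1 => by
    have h := X_pow_dvd_iff.1 (iter_step φ (m + 1 + k)) m (by omega)
    rw [map_sub, sub_eq_zero] at h
    rw [← add_assoc, h, coeff_iter φ m k]

theorem exists_solution (φ : PowerSeries R) : ∃ g : PowerSeries R, g = X * φ.subst g := by
  set g : PowerSeries R := mk fun n => coeff n (iter φ (n + 1))
  have hg : constantCoeff g = 0 := by
    rw [← coeff_zero_eq_constantCoeff_apply]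
    simp [g, iter]
  have happ : ∀ n, X ^ n ∣ g - iter φ n := fun n => X_pow_dvd_iff.2 fun m hm => by
    obtain ⟨k, rfl⟩ := Nat.exists_eq_add_of_le (show m + 1 ≤ n by omega)
    rw [map_sub, coeff_iter, coeff_mk, sub_self]
  refine ⟨g, PowerSeries.ext fun m => ?_⟩
  have h1 := X_pow_dvd_iff.1 (happ (m + 1)) m (by omega)
  have h2 := X_pow_dvd_iff.1 (dvd_subst_sub φ hg (constantCoeff_iter φ m) (happ m)) m (by omega)
  rw [map_sub, sub_eq_zero] at h1 h2
  rw [h1, h2, iter]

theorem solution_unique (φ : PowerSeries R) {g g' : PowerSeries R} (h : g = X * φ.subst g)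
    (h' : g' = X * φ.subst g') : g = g' := by
  have hg : constantCoeff g = 0 := by rw [h]; simp
  have hg' : constantCoeff g' = 0 := by rw [h']; simp
  have hn : ∀ n, X ^ n ∣ g - g' := fun n => by
    induction n with
    | zero => simp
    | succ n ih =>
      have := dvd_subst_sub φ hg hg' ih
      rwa [← h, ← h'] at this
  exact PowerSeries.ext fun m =>
    sub_eq_zero.1 (by rw [← map_sub, X_pow_dvd_iff.1 (hn (m + 1)) m (by omega)])

theorem coeff_X_mul_derivative (f : PowerSeries R) :
    ∀ i, coeff i (X * derivative R f) = (i : R) * coeff i f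
  | 0 => by simp
  | i + 1 => by
    rw [coeff_succ_X_mul, coeff_derivative]
    push_cast
    ring

theorem coeff_derivative_mul (a b : PowerSeries R) (m : ℕ) :
    coeff m (X * derivative R a * b) =
      ∑ i ∈ range (m + 1), (i : R) * coeff i a * coeff (m - i) b := by
  rw [coeff_mul, Nat.sum_antidiagonal_eq_sum_range_succ
    fun i j => coeff i (X * derivative R a) * coeff j b]
  exact sum_congr rfl fun i _ => by rw [coeff_X_mul_derivative]

theorem coeff_pow_torsionFree [IsDomain R] [CharZero R] {φ g : PowerSeries R}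
    (h : g = X * φ.subst g) : ∀ n k : ℕ, k ≤ n →
      (n : R) * coeff n (g ^ k) = (k : R) * coeff (n - k) (φ ^ n) := by
  have hg : constantCoeff g = 0 := by rw [h]; simp
  intro n
  induction n using Nat.strong_induction_on with
  | _ n ih =>
    intro k hk
    rcases Nat.eq_zero_or_pos k with rfl | hk0
    · rcases Nat.eq_zero_or_pos n with rfl | hn
      · simp
      · simp [coeff_one, hn.ne']
    have hgk : g ^ k = X ^ k * (φ ^ k).subst g := by
      conv_lhs => rw [h]
      rw [mul_pow, subst_pow (HasSubst.of_constantCoeff_zero' hg)]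
    obtain ⟨m, rfl⟩ := Nat.exists_eq_add_of_le hk
    have hc : coeff (k + m) (g ^ k) = ∑ i ∈ range (m + 1), coeff i (φ ^ k) * coeff m (g ^ i) := by
      rw [hgk, add_comm k m, coeff_X_pow_mul, coeff_subst_range hg]
    rw [Nat.add_sub_cancel_left, hc]
    rcases Nat.eq_zero_or_pos m with rfl | hm
    · simp
    refine mul_left_cancel₀ (Nat.cast_ne_zero.2 hm.ne' : (m : R) ≠ 0) ?_
    have h1 : (m : R) * ∑ i ∈ range (m + 1), coeff i (φ ^ k) * coeff m (g ^ i) =
        coeff m (X * derivative R (φ ^ k) * φ ^ m) := by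
      rw [coeff_derivative_mul, mul_sum]
      refine sum_congr rfl fun i hi => ?_
      rw [mul_left_comm, ih m (by omega) i (Nat.lt_succ_iff.1 (mem_range.1 hi))]
      ring
    have h2 : X * derivative R (φ ^ k) * φ ^ m =
        C (k : R) * (X * φ ^ (k + m - 1) * derivative R φ) := by
      rw [derivative_pow, map_natCast, show k + m - 1 = k - 1 + m by omega, pow_add]
      ring
    have h3 : (k + m : ℕ) * coeff m (X * φ ^ (k + m - 1) * derivative R φ) =
        (m : R) * coeff m (φ ^ (k + m)) := by
      rw [← coeff_X_mul_derivative, derivative_pow, ← coeff_C_mul, map_natCast]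
      congr 1
      ring
    calc (m : R) * (((k + m : ℕ) : R) * ∑ i ∈ range (m + 1), coeff i (φ ^ k) * coeff m (g ^ i))
        = ((k + m : ℕ) : R) * coeff m (X * derivative R (φ ^ k) * φ ^ m) := by rw [← h1]; ring
      _ = (m : R) * ((k : R) * coeff m (φ ^ (k + m))) := by
        rw [h2, coeff_C_mul, mul_left_comm, h3]
        ring

/-- **Lagrange**: `n [X ^ n] g ^ k = k [X ^ (n - k)] φ ^ n` over any commutative ring. -/
theorem coeff_pow_solution {φ g : PowerSeries R} (h : g = X * φ.subst g) {n k : ℕ} (hk : k ≤ n) :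
    (n : R) * coeff n (g ^ k) = (k : R) * coeff (n - k) (φ ^ n) := by
  let P : PowerSeries (MvPolynomial ℕ ℤ) := mk fun i => MvPolynomial.X i
  let e : MvPolynomial ℕ ℤ →+* R :=
    MvPolynomial.eval₂Hom (Int.castRingHom R) fun i => coeff i φ
  obtain ⟨G, hG⟩ := exists_solution P
  have hP : PowerSeries.map e P = φ := by
    ext i
    simp [P, e]
  have hG0 : constantCoeff G = 0 := by rw [hG]; simp
  have hmap : PowerSeries.map e G = g := by
    refine solution_unique φ ?_ h
    conv_lhs => rw [hG]
    rw [map_mul, map_X]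
    congr 1
    have := PowerSeries.map_subst (h := e) (HasSubst.of_constantCoeff_zero' hG0) P
    rw [hP] at this
    exact this
  have := congrArg e (coeff_pow_torsionFree hG n k hk)
  rwa [map_mul, map_mul, map_natCast, map_natCast, ← coeff_map, ← coeff_map,
    map_pow (PowerSeries.map e), map_pow (PowerSeries.map e), hmap, hP] at this

/-- **Bürmann**: `n [X ^ n] H(g) = [X ^ (n - 1)] H' φ ^ n`. -/
theorem coeff_subst_solution {φ g : PowerSeries R} (h : g = X * φ.subst g) (H : PowerSeries R)
    (n : ℕ) : ((n + 1 : ℕ) : R) * coeff (n + 1) (H.subst g) =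
      coeff n (derivative R H * φ ^ (n + 1)) := by
  have hg : constantCoeff g = 0 := by rw [h]; simp
  rw [coeff_subst_range hg, ← coeff_succ_X_mul, ← mul_assoc, coeff_derivative_mul, mul_sum]
  refine sum_congr rfl fun i hi => ?_
  rw [mul_left_comm, coeff_pow_solution h (Nat.lt_succ_iff.1 (mem_range.1 hi))]
  ring

end FA.LagrangeInversion
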